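import Fermat.Agent.FF2.Lam.NormFin

/-!
# MOONSHOT S19: from "congruence modulo `J ^ (N + 1)` for every ideal `J`" to
"congruence modulo `ℓ ^ n`" for a FINITE family (the bookkeeping that closes `(ADD)`)

`P` a valuation subring of `Qb` over `ℓ`, `W` a ring with `[Algebra W ↥P]` and an ideal `M` of `W`
whose elements have valuation `≤ v(ℓ)` in `P` (for `W = Λ_ζ`, `M = 𝔪_W = (ℓ)`).
Input: for every `N` polynomials `Q o` over `W` such that for EVERY ideal `J ⊇ M·P` of `P` and
every index `i` of a FINITE family whose finitely many coordinates `c i k` (non-units of `P`) lie in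
`J`, one has `z i o - Q o (inp i) ∈ J ^ (N + 1)`  [the shape of helper22's `x_add_congruence` /
helper2's `two_chord_congruence`].
Output: for every `n` polynomials `Q o` with `z i o - Q o (inp i) = ℓ ^ n * b`, `b ∈ P`, for all
`i`, `o`  [the shape of helper27's `(ADD)` / helper22's `hadd`].
-/

set_option autoImplicit false

namespace Fermat.Agent.FF2.Lam

local notation "Qb" => AlgebraicClosure ℚ

variable {P : ValuationSubring Qb} {ℓ : ℕ}

/-- An element of `P` killed by a ring homomorphism to a nontrivial ring is a non-unit: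
`v(c) < 1`.  (For the coordinates `c : {c : A // π c = 0}` of points of residue discs.) -/
theorem valuation_lt_one_of_map_eq_zero {k : Type*} [Semiring k] [Nontrivial k]
    (π : ↥P →+* k) {c : ↥P} (hc : π c = 0) : P.valuation (c : Qb) < 1 := by
  rcases lt_or_eq_of_le ((P.valuation_le_one_iff _).2 c.2) with h | h
  · exact h
  · exfalso
    have hu : IsUnit c := (P.valuation_eq_one_iff c).2 h
    have := hu.map π
    rw [hc] at this
    exact not_isUnit_zero this

/-- **Finite-family bookkeeping.** -/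
theorem exists_poly_congruence_of_forall_ideal (hℓ : ℓ.Prime) (hP : P.LiesOverPrime ℓ)
    {W : Type*} [CommRing W] [Algebra W ↥P] (M : Ideal W)
    (hM : ∀ w ∈ M, P.valuation ((algebraMap W ↥P w : ↥P) : Qb) ≤ P.valuation (ℓ : Qb))
    {I κ τ O : Type*} [Finite I] [Finite κ]
    (c : I → κ → ↥P) (hc : ∀ i k, P.valuation (c i k : Qb) < 1)
    (inp : I → τ → ↥P) (z : I → O → ↥P)
    (H : ∀ N : ℕ, ∃ Q : O → MvPolynomial τ W, ∀ J : Ideal ↥P,
      (∀ w ∈ M, algebraMap W ↥P w ∈ J) → ∀ i, (∀ k, c i k ∈ J) → ∀ o,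
        z i o - MvPolynomial.aeval (inp i) (Q o) ∈ J ^ (N + 1))
    (n : ℕ) :
    ∃ Q : O → MvPolynomial τ W, ∀ i o, ∃ b : ↥P,
      z i o - MvPolynomial.aeval (inp i) (Q o) = ((ℓ : ℕ) : ↥P) ^ n * b := by
  classical
  cases nonempty_fintype I
  cases nonempty_fintype κ
  let s : Finset ↥P := Finset.univ.image fun p : I × κ => c p.1 p.2
  have hs : ∀ a ∈ s, P.valuation (a : Qb) < 1 := by
    intro a ha
    obtain ⟨p, -, rfl⟩ := Finset.mem_image.1 ha
    exact hc p.1 p.2
  obtain ⟨J, e, -, -, hdiv, hsJ, -, hpow⟩ := exists_ideal_pow_le hℓ hP s hs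
  obtain ⟨Q, hQ⟩ := H (e * n)
  refine ⟨Q, fun i o => ?_⟩
  have h1 := hQ J (fun w hw => hdiv _ (hM w hw)) i
    (fun k => hsJ _ (Finset.mem_image.2 ⟨(i, k), Finset.mem_univ _, rfl⟩)) o
  have h2 : z i o - MvPolynomial.aeval (inp i) (Q o) ∈ Ideal.span {((ℓ : ℕ) : ↥P) ^ n} :=
    hpow n (Ideal.pow_le_pow_right (Nat.le_succ _) h1)
  obtain ⟨b, hb⟩ := Ideal.mem_span_singleton.1 h2
  exact ⟨b, hb⟩

end Fermat.Agent.FF2.Lam
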