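import Mathlib
import Fermat.Agent.TW.Hopf.DecompRing
import Fermat.Agent.S13.InertiaValue

/-!
# MOONSHOT S19, block (RAT-D): the rings `Λ_Γ`

`Qb = AlgebraicClosure ℚ`, `P` a valuation subring of `Qb`, `Γ` a subgroup of `G_ℚ`.
`lamRing P Γ` is the subring of `P` of the elements fixed by `Γ`.

* `Γ = D_P` gives main's `decompRing P` (`lamRing_decompositionSubgroup`, by `rfl`);
* `Γ = I_P` gives the strict henselisation of `ℤ_(ℓ)`;
* `I_P ≤ Γ ≤ D_P` gives the intermediate rings `Λ_n`.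

Results:

* (D-1) `ValuationRing (lamRing P Γ)` (no hypothesis on `Γ`);
* (D-2) `exists_zpow_div_mem`: a nonzero `z` fixed by `I_P` is `ℓ ^ m` times a unit of `P`
  (main's `S13.valuation_eq_zpow_of_inertia_fixed` in membership form);
* (D-3) for `I_P ≤ Γ`, `P` over `ℓ`: `exists_unit_mul_pow`, `maximalIdeal_eq`, `prime_natCast`,
  `isDiscreteValuationRing`, `isNoetherianRing`, `iInf_span_pow_eq_bot`;
* `mem_span_pow_iff`: divisibility by `ℓ ^ c` in `lamRing P Γ` is divisibility in `P`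
  (no hypothesis on `Γ`).
-/

set_option autoImplicit false
set_option linter.unusedSectionVars false
set_option linter.style.haveILetI false

open IsLocalRing

namespace Fermat.Agent.FF2.Lam

open Fermat.Agent.TW.Hopf.DecompRing

local notation "Qb" => AlgebraicClosure ℚ
local notation "GQ" => (AlgebraicClosure ℚ ≃ₐ[ℚ] AlgebraicClosure ℚ)

/-- The elements of `P` fixed by `Γ`. -/
def lamRing (P : ValuationSubring Qb) (Γ : Subgroup GQ) : Subring Qb where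
  carrier := {z | z ∈ P ∧ ∀ σ ∈ Γ, σ z = z}
  mul_mem' {a b} ha hb := ⟨P.mul_mem _ _ ha.1 hb.1, fun σ hσ => by rw [map_mul, ha.2 σ hσ, hb.2 σ hσ]⟩
  one_mem' := ⟨P.one_mem, fun σ _ => map_one σ⟩
  add_mem' {a b} ha hb := ⟨P.add_mem _ _ ha.1 hb.1, fun σ hσ => by rw [map_add, ha.2 σ hσ, hb.2 σ hσ]⟩
  zero_mem' := ⟨P.zero_mem, fun σ _ => map_zero σ⟩
  neg_mem' {a} ha := ⟨P.neg_mem _ ha.1, fun σ hσ => by rw [map_neg, ha.2 σ hσ]⟩

variable (P : ValuationSubring Qb) (Γ : Subgroup GQ)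

theorem mem_lamRing {z : Qb} : z ∈ lamRing P Γ ↔ z ∈ P ∧ ∀ σ ∈ Γ, σ z = z := Iff.rfl

/-- `Γ = D_P` gives main's `decompRing P`. -/
theorem lamRing_decompositionSubgroup :
    lamRing P (P.decompositionSubgroup ℚ) = decompRing P := rfl

theorem lamRing_le : lamRing P Γ ≤ P.toSubring := fun _ hz => hz.1

theorem lamRing_anti {Γ Γ' : Subgroup GQ} (h : Γ ≤ Γ') : lamRing P Γ' ≤ lamRing P Γ :=
  fun _ hz => ⟨hz.1, fun σ hσ => hz.2 σ (h hσ)⟩

theorem lamRing_bot : lamRing P ⊥ = P.toSubring := by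
  refine le_antisymm (lamRing_le P ⊥) fun z hz => ⟨hz, fun σ hσ => ?_⟩
  rw [Subgroup.mem_bot.mp hσ]
  rfl

theorem algebraMap_lamRing (a : lamRing P Γ) : algebraMap (lamRing P Γ) Qb a = (a : Qb) := rfl

theorem natCast_mem_lamRing (n : ℕ) : (n : Qb) ∈ lamRing P Γ := natCast_mem _ n

theorem intCast_mem_lamRing (n : ℤ) : (n : Qb) ∈ lamRing P Γ := intCast_mem _ n

@[simp] theorem coe_natCast_lamRing (n : ℕ) : (((n : ℕ) : lamRing P Γ) : Qb) = (n : Qb) := rfl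

/-- `ℤ_(p) ⊆ lamRing P Γ` for `P` over `p`. -/
theorem ratLoc_mem_lamRing {p : ℕ} (hp : p.Prime) (hP : P.LiesOverPrime p)
    (r : GaloisRep.ratLocalizedAt p) :
    algebraMap (GaloisRep.ratLocalizedAt p) Qb r ∈ lamRing P Γ :=
  ⟨(ratLoc_mem_decompRing P hp hP r).1, fun σ _ => σ.commutes (r : ℚ)⟩

/-! ### (D-1) valuation ring -/

variable {P Γ}

/-- A `Γ`-fixed element or its inverse lies in `lamRing P Γ`. -/
theorem mem_or_inv_mem_lamRing {z : Qb} (hz : ∀ σ ∈ Γ, σ z = z) :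
    z ∈ lamRing P Γ ∨ z⁻¹ ∈ lamRing P Γ := by
  rcases P.mem_or_inv_mem z with h | h
  · exact Or.inl ⟨h, hz⟩
  · exact Or.inr ⟨h, fun σ hσ => by rw [map_inv₀, hz σ hσ]⟩

theorem div_fixed (a b : lamRing P Γ) : ∀ σ ∈ Γ, σ ((a : Qb) / (b : Qb)) = (a : Qb) / (b : Qb) :=
  fun σ hσ => by rw [map_div₀, a.2.2 σ hσ, b.2.2 σ hσ]

variable (P Γ)

/-- (D-1) `lamRing P Γ` is a valuation ring, for every subgroup `Γ`. -/
instance instValuationRing : ValuationRing (lamRing P Γ) := by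
  haveI : PreValuationRing (lamRing P Γ) := by
    refine ⟨fun a b => ?_⟩
    by_cases ha : a = 0
    · exact ⟨0, Or.inr (by rw [ha, mul_zero])⟩
    have ha' : (a : Qb) ≠ 0 := fun h => ha (Subtype.ext h)
    rcases mem_or_inv_mem_lamRing (div_fixed b a) with h | h
    · refine ⟨⟨_, h⟩, Or.inl (Subtype.ext ?_)⟩
      show (a : Qb) * ((b : Qb) / (a : Qb)) = b
      field_simp
    · by_cases hb : b = 0
      · exact ⟨0, Or.inl (by rw [hb, mul_zero])⟩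
      have hb' : (b : Qb) ≠ 0 := fun h => hb (Subtype.ext h)
      refine ⟨⟨_, h⟩, Or.inr (Subtype.ext ?_)⟩
      show (b : Qb) * ((b : Qb) / (a : Qb))⁻¹ = a
      field_simp
  exact {}

variable {P Γ}

/-- Every `Γ`-fixed element is a quotient of elements of `lamRing P Γ` (with numerator or
denominator `1`). -/
theorem exists_eq_div_of_fixed {z : Qb} (hz : ∀ σ ∈ Γ, σ z = z) :
    ∃ a b : lamRing P Γ, b ≠ 0 ∧ z = (a : Qb) / (b : Qb) := by
  rcases mem_or_inv_mem_lamRing (P := P) hz with h | h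
  · exact ⟨⟨z, h⟩, 1, one_ne_zero, by simp⟩
  · by_cases hz0 : z = 0
    · exact ⟨0, 1, one_ne_zero, by simp [hz0]⟩
    · refine ⟨1, ⟨z⁻¹, h⟩, fun h0 => hz0 ?_, by simp⟩
      exact inv_eq_zero.mp (congrArg Subtype.val h0)

/-- Units of `lamRing P Γ` are the elements of valuation one. -/
theorem isUnit_lamRing_iff {a : lamRing P Γ} : IsUnit a ↔ P.valuation (a : Qb) = 1 := by
  constructor
  · rintro ⟨u, rfl⟩
    have h1 : ((u : lamRing P Γ) : Qb) * (((u⁻¹ : (lamRing P Γ)ˣ) : lamRing P Γ) : Qb) = 1 := by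
      rw [← Subring.coe_mul, ← Units.val_mul, mul_inv_cancel, Units.val_one, Subring.coe_one]
    have h2 : P.valuation ((u : lamRing P Γ) : Qb) ≤ 1 :=
      (P.valuation_le_one_iff _).mpr (u : lamRing P Γ).2.1
    have h3 : P.valuation (((u⁻¹ : (lamRing P Γ)ˣ) : lamRing P Γ) : Qb) ≤ 1 :=
      (P.valuation_le_one_iff _).mpr ((u⁻¹ : (lamRing P Γ)ˣ) : lamRing P Γ).2.1
    have h4 := congrArg P.valuation h1
    rw [map_mul, map_one] at h4
    refine le_antisymm h2 ?_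
    calc (1 : _) = P.valuation ((u : lamRing P Γ) : Qb) *
          P.valuation (((u⁻¹ : (lamRing P Γ)ˣ) : lamRing P Γ) : Qb) := h4.symm
      _ ≤ P.valuation ((u : lamRing P Γ) : Qb) * 1 := mul_le_mul' le_rfl h3
      _ = _ := mul_one _
  · intro h
    have ha0 : (a : Qb) ≠ 0 := by
      intro h0
      rw [h0, map_zero] at h
      exact zero_ne_one h
    have hinv : (a : Qb)⁻¹ ∈ P := by
      rw [← P.valuation_le_one_iff, map_inv₀, h, inv_one]
    rw [isUnit_iff_exists_inv]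
    exact ⟨⟨(a : Qb)⁻¹, hinv, fun σ hσ => by rw [map_inv₀, a.2.2 σ hσ]⟩,
      Subtype.ext (mul_inv_cancel₀ ha0)⟩

/-! ### Divisibility by integers in `lamRing P Γ` is divisibility in `P` -/

/-- `b ∣ a` in `lamRing P Γ` iff `a / b ∈ P` (for `b ≠ 0`). -/
theorem dvd_lamRing_iff {a b : lamRing P Γ} (hb : b ≠ 0) : b ∣ a ↔ (a : Qb) / (b : Qb) ∈ P := by
  have hb' : (b : Qb) ≠ 0 := fun h => hb (Subtype.ext h)
  constructor
  · rintro ⟨c, rfl⟩
    rw [Subring.coe_mul, mul_div_cancel_left₀ _ hb']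
    exact c.2.1
  · intro h
    refine ⟨⟨_, h, div_fixed a b⟩, Subtype.ext ?_⟩
    show (a : Qb) = (b : Qb) * ((a : Qb) / (b : Qb))
    field_simp

/-- Membership in the ideal generated by an integer power: no hypothesis on `Γ`. -/
theorem mem_span_natCast_pow_iff {ℓ : ℕ} (hℓ : ℓ ≠ 0) (c : ℕ) {a : lamRing P Γ} :
    a ∈ Ideal.span {((ℓ : ℕ) : lamRing P Γ) ^ c} ↔ (a : Qb) / (ℓ : Qb) ^ c ∈ P := by
  have h0 : ((ℓ : ℕ) : lamRing P Γ) ^ c ≠ 0 := by
    intro h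
    have h1 := congrArg (fun w : lamRing P Γ => (w : Qb)) h
    simp only [Subring.coe_pow, coe_natCast_lamRing, Subring.coe_zero] at h1
    exact pow_ne_zero c (Nat.cast_ne_zero.mpr hℓ) h1
  rw [Ideal.mem_span_singleton, dvd_lamRing_iff h0, Subring.coe_pow, coe_natCast_lamRing]

/-! ### (D-2) the value group of the inertia field -/

/-- (D-2) A nonzero element fixed by the inertia group of `P` is `ℓ ^ m` times a unit of `P`. -/
theorem exists_zpow_div_mem {ℓ : ℕ} (hℓ : ℓ.Prime) (hP : P.LiesOverPrime ℓ) {z : Qb}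
    (hz : z ≠ 0) (hfix : ∀ σ ∈ P.inertiaSubgroupIn ℚ, σ z = z) :
    ∃ m : ℤ, z / (ℓ : Qb) ^ m ∈ P ∧ (z / (ℓ : Qb) ^ m)⁻¹ ∈ P := by
  haveI := Fermat.Agent.S54.FrobExists.isGalois_rat_algebraicClosure
  obtain ⟨n, hn⟩ := Fermat.Agent.S13.valuation_eq_zpow_of_inertia_fixed P hℓ hP hz hfix
  have hℓ0 : (ℓ : Qb) ≠ 0 := Nat.cast_ne_zero.mpr hℓ.ne_zero
  have hv : P.valuation (z / (ℓ : Qb) ^ n) = 1 := by
    rw [map_div₀, map_zpow₀, hn, div_self]
    exact zpow_ne_zero _ ((Valuation.ne_zero_iff _).mpr hℓ0)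
  refine ⟨n, ?_, ?_⟩
  · rw [← P.valuation_le_one_iff, hv]
  · rw [← P.valuation_le_one_iff, map_inv₀, hv, inv_one]

/-! ### (D-3) `lamRing P Γ` is a discrete valuation ring with uniformiser `ℓ` -/

section DVR

variable {ℓ : ℕ}

theorem valuation_natCast_lt_one (hP : P.LiesOverPrime ℓ) : P.valuation (ℓ : Qb) < 1 :=
  (P.mem_nonunits_iff).mp hP

theorem not_isUnit_natCast (hP : P.LiesOverPrime ℓ) : ¬ IsUnit ((ℓ : ℕ) : lamRing P Γ) := by
  rw [isUnit_lamRing_iff, coe_natCast_lamRing]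
  exact (valuation_natCast_lt_one hP).ne

theorem natCast_ne_zero_lamRing (hℓ : ℓ.Prime) : ((ℓ : ℕ) : lamRing P Γ) ≠ 0 := by
  intro h
  have h1 := congrArg (fun w : lamRing P Γ => (w : Qb)) h
  simp only [coe_natCast_lamRing, Subring.coe_zero] at h1
  exact (Nat.cast_ne_zero.mpr hℓ.ne_zero) h1

/-- Every nonzero element of `lamRing P Γ` is a unit times a power of `ℓ`. -/
theorem exists_unit_mul_pow (hℓ : ℓ.Prime) (hP : P.LiesOverPrime ℓ)
    (hI : P.inertiaSubgroupIn ℚ ≤ Γ) {a : lamRing P Γ} (ha : a ≠ 0) :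
    ∃ (m : ℕ) (u : (lamRing P Γ)ˣ), a = (u : lamRing P Γ) * ((ℓ : ℕ) : lamRing P Γ) ^ m := by
  haveI := Fermat.Agent.S54.FrobExists.isGalois_rat_algebraicClosure
  have ha' : (a : Qb) ≠ 0 := fun h => ha (Subtype.ext h)
  have hfix : ∀ σ ∈ P.inertiaSubgroupIn ℚ, σ (a : Qb) = (a : Qb) := fun σ hσ => a.2.2 σ (hI hσ)
  obtain ⟨n, hn⟩ := Fermat.Agent.S13.valuation_eq_zpow_of_inertia_fixed P hℓ hP ha' hfix
  have hℓ0 : (ℓ : Qb) ≠ 0 := Nat.cast_ne_zero.mpr hℓ.ne_zero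
  have hvℓ0 : 0 < P.valuation (ℓ : Qb) := zero_lt_iff.mpr ((Valuation.ne_zero_iff _).mpr hℓ0)
  have hvℓ1 : P.valuation (ℓ : Qb) < 1 := valuation_natCast_lt_one hP
  have hn0 : 0 ≤ n := by
    by_contra hneg
    have h1 : 1 < P.valuation (ℓ : Qb) ^ n := one_lt_zpow_of_neg₀ hvℓ0 hvℓ1 (not_le.mp hneg)
    rw [← hn] at h1
    exact absurd ((P.valuation_le_one_iff _).mpr a.2.1) (not_le.mpr h1)
  obtain ⟨m, rfl⟩ := Int.eq_ofNat_of_zero_le hn0
  rw [zpow_natCast] at hn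
  have hw : P.valuation ((a : Qb) / (ℓ : Qb) ^ m) = 1 := by
    rw [map_div₀, map_pow, hn, div_self]
    exact pow_ne_zero _ hvℓ0.ne'
  have hwP : (a : Qb) / (ℓ : Qb) ^ m ∈ P := by rw [← P.valuation_le_one_iff, hw]
  have hwfix : ∀ σ ∈ Γ, σ ((a : Qb) / (ℓ : Qb) ^ m) = (a : Qb) / (ℓ : Qb) ^ m := by
    intro σ hσ
    rw [map_div₀, map_pow, map_natCast, a.2.2 σ hσ]
  let w : lamRing P Γ := ⟨_, hwP, hwfix⟩
  have hwu : IsUnit w := isUnit_lamRing_iff.mpr hw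
  refine ⟨m, hwu.unit, Subtype.ext ?_⟩
  show (a : Qb) = ((a : Qb) / (ℓ : Qb) ^ m) * (ℓ : Qb) ^ m
  rw [div_mul_cancel₀ _ (pow_ne_zero _ hℓ0)]

/-- The maximal ideal of `lamRing P Γ` is generated by `ℓ`. -/
theorem maximalIdeal_eq (hℓ : ℓ.Prime) (hP : P.LiesOverPrime ℓ)
    (hI : P.inertiaSubgroupIn ℚ ≤ Γ) :
    maximalIdeal (lamRing P Γ) = Ideal.span {((ℓ : ℕ) : lamRing P Γ)} := by
  apply le_antisymm
  · intro a ha
    rw [mem_maximalIdeal, mem_nonunits_iff] at ha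
    by_cases ha0 : a = 0
    · rw [ha0]; exact Ideal.zero_mem _
    obtain ⟨m, u, rfl⟩ := exists_unit_mul_pow hℓ hP hI ha0
    rcases Nat.eq_zero_or_pos m with rfl | hm
    · rw [pow_zero, mul_one] at ha
      exact absurd u.isUnit ha
    · rw [Ideal.mem_span_singleton]
      exact Dvd.dvd.mul_left (dvd_pow_self _ hm.ne') _
  · rw [Ideal.span_le, Set.singleton_subset_iff, SetLike.mem_coe, mem_maximalIdeal,
      mem_nonunits_iff]
    exact not_isUnit_natCast hP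

/-- `ℓ` is a prime element of `lamRing P Γ`. -/
theorem prime_natCast (hℓ : ℓ.Prime) (hP : P.LiesOverPrime ℓ)
    (hI : P.inertiaSubgroupIn ℚ ≤ Γ) : Prime ((ℓ : ℕ) : lamRing P Γ) := by
  rw [← Ideal.span_singleton_prime (natCast_ne_zero_lamRing hℓ), ← maximalIdeal_eq hℓ hP hI]
  infer_instance

theorem irreducible_natCast (hℓ : ℓ.Prime) (hP : P.LiesOverPrime ℓ)
    (hI : P.inertiaSubgroupIn ℚ ≤ Γ) : Irreducible ((ℓ : ℕ) : lamRing P Γ) :=
  (prime_natCast hℓ hP hI).irreducible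

/-- (D-3) `lamRing P Γ` is a discrete valuation ring. -/
theorem isDiscreteValuationRing (hℓ : ℓ.Prime) (hP : P.LiesOverPrime ℓ)
    (hI : P.inertiaSubgroupIn ℚ ≤ Γ) : IsDiscreteValuationRing (lamRing P Γ) := by
  refine IsDiscreteValuationRing.ofHasUnitMulPowIrreducibleFactorization
    ⟨((ℓ : ℕ) : lamRing P Γ), irreducible_natCast hℓ hP hI, fun {a} ha => ?_⟩
  obtain ⟨m, u, rfl⟩ := exists_unit_mul_pow hℓ hP hI ha
  exact ⟨m, u, by rw [mul_comm]⟩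

theorem isPrincipalIdealRing (hℓ : ℓ.Prime) (hP : P.LiesOverPrime ℓ)
    (hI : P.inertiaSubgroupIn ℚ ≤ Γ) : IsPrincipalIdealRing (lamRing P Γ) :=
  haveI := isDiscreteValuationRing hℓ hP hI
  inferInstance

theorem isNoetherianRing (hℓ : ℓ.Prime) (hP : P.LiesOverPrime ℓ)
    (hI : P.inertiaSubgroupIn ℚ ≤ Γ) : IsNoetherianRing (lamRing P Γ) :=
  haveI := isDiscreteValuationRing hℓ hP hI
  inferInstance

/-- Krull: `⋂ₙ (ℓ ^ n) = 0` in `lamRing P Γ`. -/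
theorem iInf_span_pow_eq_bot (hℓ : ℓ.Prime) (hP : P.LiesOverPrime ℓ)
    (hI : P.inertiaSubgroupIn ℚ ≤ Γ) :
    ⨅ n : ℕ, Ideal.span {((ℓ : ℕ) : lamRing P Γ)} ^ n = ⊥ := by
  haveI := isNoetherianRing hℓ hP hI
  rw [← maximalIdeal_eq hℓ hP hI]
  exact Ideal.iInf_pow_eq_bot_of_isLocalRing _ (maximalIdeal.isMaximal _).ne_top

/-- Elementwise Krull: an element of `lamRing P Γ` divisible (in `P`) by all powers of `ℓ`
vanishes. -/
theorem eq_zero_of_forall_div_mem (hℓ : ℓ.Prime) (hP : P.LiesOverPrime ℓ)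
    (hI : P.inertiaSubgroupIn ℚ ≤ Γ) {a : lamRing P Γ}
    (h : ∀ c : ℕ, (a : Qb) / (ℓ : Qb) ^ c ∈ P) : a = 0 := by
  have h1 : a ∈ ⨅ n : ℕ, Ideal.span {((ℓ : ℕ) : lamRing P Γ)} ^ n := by
    rw [Ideal.mem_iInf]
    intro c
    rw [Ideal.span_singleton_pow, mem_span_natCast_pow_iff hℓ.ne_zero]
    exact h c
  rw [iInf_span_pow_eq_bot hℓ hP hI] at h1
  exact h1

end DVR

end Fermat.Agent.FF2.Lam
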