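import Fermat.Agent.FF2.Lam.Basic
import Fermat.Agent.S05.Val

/-!
# MOONSHOT S19, (NB): the norm bound `J ^ (d * N) ⊆ ℓ ^ N · P`

`P` a valuation subring of `Qb = AlgebraicClosure ℚ` over `ℓ`, `I_P ≤ Γ ≤ D_P` (so that
`lamRing P Γ` is a DVR with uniformiser `ℓ`), `Γ' ≤ Γ` of finite index `d` (in the application
`Γ = Γ_n`, `Γ' = Γ_n ∩ G_L`, `L` the field of definition of the finitely many points in play).

* `normElt Γ Γ' z = ∏_{q ∈ Γ/Γ'} q z`, the norm; `normElt_fixed`, `valuation_normElt`;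
* `valuation_pow_le_of_fixed` : a non-unit `z ∈ P` fixed by `Γ'` has `v(z) ^ d ≤ v(ℓ)`;
* `levelIdeal P ℓ d m = {a ∈ P | v(a) ^ d ≤ v(ℓ) ^ m}`, `normIdeal P ℓ d = levelIdeal P ℓ d 1`;
* `normIdeal_pow_le` : `normIdeal P ℓ d ^ (d * N) ≤ span {ℓ ^ N}` in `↥P`.

So helper2's `chord_congruence` applies with `B := ↥P` (the whole valuation ring of `Qb`) and
`J := normIdeal P ℓ d`.
-/

set_option autoImplicit false

namespace Fermat.Agent.FF2.Lam

local notation "Qb" => AlgebraicClosure ℚ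
local notation "GQ" => (AlgebraicClosure ℚ ≃ₐ[ℚ] AlgebraicClosure ℚ)

/-! ### The norm from `Qb ^ Γ'` to `Qb ^ Γ` -/

section Norm

variable (Γ Γ' : Subgroup GQ)

/-- For `z` fixed by `Γ'`, `g z` depends only on the coset of `g ∈ Γ` modulo `Γ'`. -/
theorem apply_eq_of_mk_eq {Γ Γ' : Subgroup GQ} {z : Qb} (hfix : ∀ σ ∈ Γ', σ z = z) {g₁ g₂ : Γ}
    (h : (QuotientGroup.mk g₁ : Γ ⧸ Γ'.subgroupOf Γ) = QuotientGroup.mk g₂) :
    (g₁ : GQ) z = (g₂ : GQ) z := by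
  have h1 : g₁⁻¹ * g₂ ∈ Γ'.subgroupOf Γ := QuotientGroup.eq.1 h
  have h2 : ((g₁⁻¹ * g₂ : Γ) : GQ) ∈ Γ' := Subgroup.mem_subgroupOf.1 h1
  have h3 := hfix _ h2
  have h4 : (g₂ : GQ) = (g₁ : GQ) * ((g₁⁻¹ * g₂ : Γ) : GQ) := by
    rw [← Subgroup.coe_mul, mul_inv_cancel_left]
  rw [h4, AlgEquiv.mul_apply, h3]

variable [(Γ'.subgroupOf Γ).FiniteIndex]

/-- The norm `∏_{q ∈ Γ / Γ'} q z` (over coset representatives). -/
noncomputable def normElt (z : Qb) : Qb :=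
  letI := Subgroup.fintypeQuotientOfFiniteIndex (H := Γ'.subgroupOf Γ)
  ∏ q : Γ ⧸ Γ'.subgroupOf Γ, ((Quotient.out q : Γ) : GQ) z

variable {Γ Γ'}

/-- The norm of a `Γ'`-fixed element is `Γ`-fixed. -/
theorem normElt_fixed {z : Qb} (hfix : ∀ σ ∈ Γ', σ z = z) (τ : GQ) (hτ : τ ∈ Γ) :
    τ (normElt Γ Γ' z) = normElt Γ Γ' z := by
  let _ := Subgroup.fintypeQuotientOfFiniteIndex (H := Γ'.subgroupOf Γ)
  unfold normElt
  rw [map_prod]
  let t : Γ := ⟨τ, hτ⟩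
  have h1 : ∀ q : Γ ⧸ Γ'.subgroupOf Γ,
      τ (((Quotient.out q : Γ) : GQ) z) = ((Quotient.out (t • q) : Γ) : GQ) z := by
    intro q
    have h2 : τ (((Quotient.out q : Γ) : GQ) z) = ((t * Quotient.out q : Γ) : GQ) z := by
      rw [Subgroup.coe_mul, AlgEquiv.mul_apply]
    rw [h2]
    refine apply_eq_of_mk_eq hfix ?_
    rw [QuotientGroup.out_eq']
    conv_rhs => rw [← QuotientGroup.out_eq' q, MulAction.Quotient.smul_mk, smul_eq_mul]
  rw [Finset.prod_congr rfl fun q _ => h1 q]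
  exact Fintype.prod_equiv (MulAction.toPerm t) _ _ fun q => rfl

/-- The valuation of the norm: `v(N z) = v(z) ^ [Γ : Γ']` when `Γ ≤ D_P`. -/
theorem valuation_normElt (P : ValuationSubring Qb) (hΓ : Γ ≤ P.decompositionSubgroup ℚ)
    (z : Qb) :
    P.valuation (normElt Γ Γ' z) = P.valuation z ^ (Γ'.subgroupOf Γ).index := by
  let _ := Subgroup.fintypeQuotientOfFiniteIndex (H := Γ'.subgroupOf Γ)
  unfold normElt
  rw [map_prod]
  have h1 : ∀ q : Γ ⧸ Γ'.subgroupOf Γ,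
      P.valuation (((Quotient.out q : Γ) : GQ) z) = P.valuation z := fun q =>
    Fermat.Agent.S05.valuation_apply_eq P (hΓ (Quotient.out q).2)
      (Fermat.Agent.S05.isAlgebraic_rat_algebraicClosure z)
  rw [Finset.prod_congr rfl fun q _ => h1 q, Finset.prod_const, Finset.card_univ,
    Subgroup.index_eq_card, Nat.card_eq_fintype_card]

end Norm

/-! ### The bound -/

section Bound

variable {P : ValuationSubring Qb} {Γ Γ' : Subgroup GQ} [(Γ'.subgroupOf Γ).FiniteIndex]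
  {ℓ : ℕ}

/-- **The norm bound**: a non-unit of `P` fixed by a subgroup `Γ'` of index `d` in `Γ`
(`I_P ≤ Γ ≤ D_P`) satisfies `v(z) ^ d ≤ v(ℓ)`. -/
theorem valuation_pow_le_of_fixed (hℓ : ℓ.Prime) (hP : P.LiesOverPrime ℓ)
    (hI : P.inertiaSubgroupIn ℚ ≤ Γ) (hΓ : Γ ≤ P.decompositionSubgroup ℚ) {z : Qb}
    (hz : P.valuation z < 1) (hfix : ∀ σ ∈ Γ', σ z = z) :
    P.valuation z ^ (Γ'.subgroupOf Γ).index ≤ P.valuation (ℓ : Qb) := by
  have hd : (Γ'.subgroupOf Γ).index ≠ 0 := Subgroup.FiniteIndex.index_ne_zero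
  have hv := valuation_normElt (Γ := Γ) (Γ' := Γ') P hΓ z
  have hlt : P.valuation (normElt Γ Γ' z) < 1 := by
    rw [hv]
    exact pow_lt_one₀ zero_le hz hd
  have hmemP : normElt Γ Γ' z ∈ P := (P.valuation_le_one_iff _).1 hlt.le
  -- the norm as an element of `lamRing P Γ`
  let n : lamRing P Γ := ⟨normElt Γ Γ' z, hmemP, fun σ hσ => normElt_fixed hfix σ hσ⟩
  have hnu : ¬ IsUnit n := by
    rw [isUnit_lamRing_iff]
    exact hlt.ne
  have hmem : n ∈ IsLocalRing.maximalIdeal (lamRing P Γ) := (IsLocalRing.mem_maximalIdeal n).2 hnu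
  rw [maximalIdeal_eq hℓ hP hI, Ideal.mem_span_singleton] at hmem
  obtain ⟨b, hb⟩ := hmem
  have h2 : normElt Γ Γ' z = (ℓ : Qb) * (b : Qb) := by
    have := congrArg (fun a : lamRing P Γ => (a : Qb)) hb
    simpa using this
  rw [← hv, h2, map_mul]
  have hb1 : P.valuation (b : Qb) ≤ 1 := (P.valuation_le_one_iff _).2 b.2.1
  exact mul_le_of_le_one_right' hb1

end Bound

/-! ### The ideals `{v(a) ^ d ≤ v(ℓ) ^ m}` of `P` -/

section Ideals

variable (P : ValuationSubring Qb) (ℓ d : ℕ) [NeZero d]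

/-- The ideal `{a ∈ P | v(a) ^ d ≤ v(ℓ) ^ m}` of the valuation ring `P`. -/
def levelIdeal (m : ℕ) : Ideal ↥P where
  carrier := {a | P.valuation (a : Qb) ^ d ≤ P.valuation (ℓ : Qb) ^ m}
  zero_mem' := by
    show P.valuation ((0 : ↥P) : Qb) ^ d ≤ _
    rw [ZeroMemClass.coe_zero, map_zero, zero_pow (NeZero.ne d)]
    exact zero_le
  add_mem' := by
    intro a b ha hb
    show P.valuation ((a + b : ↥P) : Qb) ^ d ≤ _
    rw [AddMemClass.coe_add]
    rcases le_total (P.valuation (a : Qb)) (P.valuation (b : Qb)) with h | h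
    · exact (pow_le_pow_left₀ zero_le
        ((P.valuation.map_add _ _).trans (max_le h le_rfl)) d).trans hb
    · exact (pow_le_pow_left₀ zero_le
        ((P.valuation.map_add _ _).trans (max_le le_rfl h)) d).trans ha
  smul_mem' := by
    intro c a ha
    show P.valuation ((c * a : ↥P) : Qb) ^ d ≤ _
    rw [MulMemClass.coe_mul, map_mul, mul_pow]
    have hc : P.valuation (c : Qb) ^ d ≤ 1 :=
      pow_le_one₀ zero_le ((P.valuation_le_one_iff _).2 c.2)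
    calc P.valuation (c : Qb) ^ d * P.valuation (a : Qb) ^ d
        ≤ 1 * P.valuation (a : Qb) ^ d := mul_le_mul' hc le_rfl
      _ = P.valuation (a : Qb) ^ d := one_mul _
      _ ≤ _ := ha

variable {P ℓ d}

theorem mem_levelIdeal {m : ℕ} {a : ↥P} :
    a ∈ levelIdeal P ℓ d m ↔ P.valuation (a : Qb) ^ d ≤ P.valuation (ℓ : Qb) ^ m := Iff.rfl

theorem levelIdeal_mul_le (m m' : ℕ) :
    levelIdeal P ℓ d m * levelIdeal P ℓ d m' ≤ levelIdeal P ℓ d (m + m') := by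
  rw [Ideal.mul_le]
  intro a ha b hb
  rw [mem_levelIdeal] at ha hb ⊢
  rw [MulMemClass.coe_mul, map_mul, mul_pow, pow_add]
  exact mul_le_mul' ha hb

variable (P ℓ d)

/-- The ideal `{a ∈ P | v(a) ^ d ≤ v(ℓ)}`: it contains `ℓ` and all non-units of `P` fixed by a
subgroup of index `d` of `Γ`. -/
def normIdeal : Ideal ↥P := levelIdeal P ℓ d 1

variable {P ℓ d}

theorem mem_normIdeal {a : ↥P} :
    a ∈ normIdeal P ℓ d ↔ P.valuation (a : Qb) ^ d ≤ P.valuation (ℓ : Qb) := by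
  rw [normIdeal, mem_levelIdeal, pow_one]

/-- Elements divisible by `ℓ` are in the norm ideal. -/
theorem mem_normIdeal_of_valuation_le {a : ↥P}
    (h : P.valuation (a : Qb) ≤ P.valuation (ℓ : Qb)) : a ∈ normIdeal P ℓ d := by
  rw [mem_normIdeal]
  have h1 : P.valuation (a : Qb) ≤ 1 := (P.valuation_le_one_iff _).2 a.2
  exact (pow_le_of_le_one zero_le h1 (NeZero.ne d)).trans h

theorem natCast_mem_normIdeal : ((ℓ : ℕ) : ↥P) ∈ normIdeal P ℓ d :=
  mem_normIdeal_of_valuation_le (by simp)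

/-- The image of the maximal ideal of `lamRing P Γ` lies in the norm ideal (`hWJ` of
`chord_congruence`). -/
theorem mem_normIdeal_of_mem_maximalIdeal {Γ : Subgroup GQ} (hℓ : ℓ.Prime)
    (hP : P.LiesOverPrime ℓ) (hI : P.inertiaSubgroupIn ℚ ≤ Γ) {a : lamRing P Γ}
    (ha : a ∈ IsLocalRing.maximalIdeal (lamRing P Γ)) :
    (⟨(a : Qb), a.2.1⟩ : ↥P) ∈ normIdeal P ℓ d := by
  rw [maximalIdeal_eq hℓ hP hI, Ideal.mem_span_singleton] at ha
  obtain ⟨b, hb⟩ := ha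
  refine mem_normIdeal_of_valuation_le ?_
  have h2 : (a : Qb) = (ℓ : Qb) * (b : Qb) := by
    have := congrArg (fun a : lamRing P Γ => (a : Qb)) hb
    simpa using this
  show P.valuation (a : Qb) ≤ _
  rw [h2, map_mul]
  exact mul_le_of_le_one_right' ((P.valuation_le_one_iff _).2 b.2.1)

/-- **Non-units fixed by `Γ'` are in the norm ideal** (`d = [Γ : Γ']`). -/
theorem mem_normIdeal_of_fixed {Γ Γ' : Subgroup GQ} [(Γ'.subgroupOf Γ).FiniteIndex]
    (hd : (Γ'.subgroupOf Γ).index = d) (hℓ : ℓ.Prime) (hP : P.LiesOverPrime ℓ)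
    (hI : P.inertiaSubgroupIn ℚ ≤ Γ) (hΓ : Γ ≤ P.decompositionSubgroup ℚ) {a : ↥P}
    (hz : P.valuation (a : Qb) < 1) (hfix : ∀ σ ∈ Γ', σ (a : Qb) = (a : Qb)) :
    a ∈ normIdeal P ℓ d := by
  rw [mem_normIdeal, ← hd]
  exact valuation_pow_le_of_fixed hℓ hP hI hΓ hz hfix

theorem normIdeal_pow_le_levelIdeal (m : ℕ) : normIdeal P ℓ d ^ m ≤ levelIdeal P ℓ d m := by
  induction m with
  | zero =>
    intro a _
    rw [mem_levelIdeal, pow_zero]
    exact pow_le_one₀ zero_le ((P.valuation_le_one_iff _).2 a.2)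
  | succ m ih =>
    rw [pow_succ]
    exact (Ideal.mul_mono ih le_rfl).trans (levelIdeal_mul_le m 1)

/-- `{v(a) ^ d ≤ v(ℓ) ^ (d N)} = ℓ ^ N · P`. -/
theorem levelIdeal_mul_le_span (hℓ : ℓ ≠ 0) (N : ℕ) :
    levelIdeal P ℓ d (d * N) ≤ Ideal.span {((ℓ : ℕ) : ↥P) ^ N} := by
  intro a ha
  rw [mem_levelIdeal, mul_comm, pow_mul] at ha
  have h1 : P.valuation (a : Qb) ≤ P.valuation (ℓ : Qb) ^ N :=
    (pow_le_pow_iff_left₀ zero_le zero_le (NeZero.ne d)).1 ha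
  have hℓ0 : ((ℓ : Qb)) ^ N ≠ 0 := pow_ne_zero _ (Nat.cast_ne_zero.2 hℓ)
  have h2 : (a : Qb) / (ℓ : Qb) ^ N ∈ P := by
    rw [← P.valuation_le_one_iff, map_div₀, map_pow]
    exact div_le_one_of_le₀ h1 zero_le
  rw [Ideal.mem_span_singleton]
  refine ⟨⟨_, h2⟩, Subtype.ext ?_⟩
  simp only [MulMemClass.coe_mul, SubmonoidClass.coe_pow]
  rw [show (((ℓ : ℕ) : ↥P) : Qb) = (ℓ : Qb) from rfl, mul_div_cancel₀ _ hℓ0]

/-- **(NB)** `J ^ (d N) ⊆ ℓ ^ N · P` for `J = normIdeal P ℓ d`. -/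
theorem normIdeal_pow_le (hℓ : ℓ ≠ 0) (N : ℕ) :
    normIdeal P ℓ d ^ (d * N) ≤ Ideal.span {((ℓ : ℕ) : ↥P) ^ N} :=
  (normIdeal_pow_le_levelIdeal (d * N)).trans (levelIdeal_mul_le_span hℓ N)

end Ideals

end Fermat.Agent.FF2.Lam
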