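import Fermat.Agent.FF2.Lam.NormBound
import Fermat.Agent.Val.RankOne

/-!
# MOONSHOT S19, (NB), finite form: finitely many non-units of `P` lie in one `normIdeal`

`P` a valuation subring of `Qb` over `ℓ` (rank one: main's `Val.exists_pow_valuation_le`).
For a FINITE set `s` of non-units of `P` there is `d` with `s ⊆ normIdeal P ℓ (d + 1)`; hence an
ideal `J` of `↥P` containing `ℓ`, `s` and everything divisible by `ℓ`, with
`J ^ (e * N) ≤ span {ℓ ^ N}` for all `N`.  No field of definition, no Galois group, no norm.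
(This is the "finite `V`" simplification: `hP` of `chartAlg_isDeltaStable` involves finitely many
coordinates only.)
-/

set_option autoImplicit false

namespace Fermat.Agent.FF2.Lam

local notation "Qb" => AlgebraicClosure ℚ

variable {P : ValuationSubring Qb} {ℓ : ℕ}

theorem isAlgebraic_int_Qb (x : Qb) : IsAlgebraic ℤ x :=
  (IsFractionRing.isAlgebraic_iff ℤ ℚ (AlgebraicClosure ℚ)).2
    ((AlgebraicClosure.instIsAlgClosure ℚ).isAlgebraic.isAlgebraic x)

/-- `normIdeal P ℓ d` grows with `d`. -/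
theorem normIdeal_mono {d d' : ℕ} [NeZero d] [NeZero d'] (h : d ≤ d') :
    normIdeal P ℓ d ≤ normIdeal P ℓ d' := by
  intro a ha
  rw [mem_normIdeal] at ha ⊢
  exact (pow_le_pow_of_le_one zero_le ((P.valuation_le_one_iff _).2 a.2) h).trans ha

/-- A single non-unit of `P` lies in some `normIdeal`. -/
theorem exists_mem_normIdeal (hℓ : ℓ.Prime) (hP : P.LiesOverPrime ℓ) {a : ↥P}
    (ha : P.valuation (a : Qb) < 1) : ∃ d : ℕ, a ∈ normIdeal P ℓ (d + 1) := by
  by_cases h0 : (a : Qb) = 0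
  · refine ⟨0, ?_⟩
    rw [mem_normIdeal, h0, map_zero, zero_pow (by norm_num)]
    exact zero_le
  · obtain ⟨n, hn⟩ := Fermat.Agent.Val.exists_pow_valuation_le P hℓ
      (valuation_natCast_lt_one hP) (isAlgebraic_int_Qb (a : Qb)) h0 ha
    refine ⟨n, ?_⟩
    rw [mem_normIdeal]
    exact (pow_le_pow_of_le_one zero_le ha.le (Nat.le_succ n)).trans hn

/-- **Finitely many non-units of `P` lie in ONE `normIdeal`.** -/
theorem exists_forall_mem_normIdeal (hℓ : ℓ.Prime) (hP : P.LiesOverPrime ℓ) (s : Finset ↥P)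
    (hs : ∀ a ∈ s, P.valuation (a : Qb) < 1) : ∃ d : ℕ, ∀ a ∈ s, a ∈ normIdeal P ℓ (d + 1) := by
  classical
  induction s using Finset.induction_on with
  | empty => exact ⟨0, fun a ha => absurd ha (Finset.notMem_empty a)⟩
  | insert b s _ ih =>
    obtain ⟨d₁, h₁⟩ := ih fun a ha => hs a (Finset.mem_insert_of_mem ha)
    obtain ⟨d₂, h₂⟩ := exists_mem_normIdeal hℓ hP (hs b (Finset.mem_insert_self b s))
    refine ⟨max d₁ d₂, fun a ha => ?_⟩
    rcases Finset.mem_insert.1 ha with rfl | ha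
    · exact normIdeal_mono (Nat.succ_le_succ (le_max_right d₁ d₂)) h₂
    · exact normIdeal_mono (Nat.succ_le_succ (le_max_left d₁ d₂)) (h₁ a ha)

/-- **(NB), finite form**: an ideal `J` of the valuation ring `P` containing `ℓ`, everything
divisible by `ℓ` and the given finitely many non-units, with `J ^ (e * N) ≤ ℓ ^ N · P`. -/
theorem exists_ideal_pow_le (hℓ : ℓ.Prime) (hP : P.LiesOverPrime ℓ) (s : Finset ↥P)
    (hs : ∀ a ∈ s, P.valuation (a : Qb) < 1) :
    ∃ (J : Ideal ↥P) (e : ℕ), e ≠ 0 ∧ ((ℓ : ℕ) : ↥P) ∈ J ∧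
      (∀ a : ↥P, P.valuation (a : Qb) ≤ P.valuation (ℓ : Qb) → a ∈ J) ∧ (∀ a ∈ s, a ∈ J) ∧
      (∀ a ∈ J, P.valuation ((a : ↥P) : Qb) < 1) ∧
      ∀ N : ℕ, J ^ (e * N) ≤ Ideal.span {((ℓ : ℕ) : ↥P) ^ N} := by
  obtain ⟨d, hd⟩ := exists_forall_mem_normIdeal hℓ hP s hs
  refine ⟨normIdeal P ℓ (d + 1), d + 1, Nat.succ_ne_zero d, natCast_mem_normIdeal,
    fun a ha => mem_normIdeal_of_valuation_le ha, hd, fun a ha => ?_,
    fun N => normIdeal_pow_le hℓ.ne_zero N⟩
  rw [mem_normIdeal] at ha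
  by_contra hcon
  have h1 : P.valuation (a : Qb) = 1 :=
    le_antisymm ((P.valuation_le_one_iff _).2 a.2) (not_lt.1 hcon)
  rw [h1, one_pow] at ha
  exact absurd (valuation_natCast_lt_one hP) (not_lt.2 ha)

end Fermat.Agent.FF2.Lam
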